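import Fermat.Agent.S53.V4.UnivRing
import Fermat.Agent.S53.ResidualNormal

set_option autoImplicit false

/-!
Assembly of `DeformationRingData`.  OWNER: helper8.
-/

namespace Fermat.Agent.S53

open IsLocalRing

set_option linter.unusedSectionVars false

noncomputable section

variable {𝒪 : Type} [CommRing 𝒪] [IsLocalRing 𝒪] [IsNoetherianRing 𝒪]
  {ρbar : ResidualGaloisRep (ResidueField 𝒪)} (N : NormDatum 𝒪 ρbar)
  {𝒟 : ∀ ⦃A : Type⦄ [CommRing A] [IsLocalRing A] [Algebra 𝒪 A], GaloisRepAdic A → Prop}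
  (S : Finset Entry) [Finite (ResidueField 𝒪)] [Fact (UnivHyp N (𝒟 := 𝒟) S)]

/-- The universal representation. -/
def univRep : GaloisRepAdic (UnivRing N 𝒟 S) :=
  ofMat (univMat N S (𝒟 := 𝒟)) (univMat_isNormLift N S).cont

theorem univRep_isOfType : 𝒟 (univRep N S (𝒟 := 𝒟)) := by
  have H : UnivHyp N (𝒟 := 𝒟) S := Fact.out
  refine D_of_forall_quotPow H.h𝒟 (univMat_isNormLift N S).cont fun n => ?_
  obtain ⟨_, h2⟩ := univMat_quotPow N S (𝒟 := 𝒟) n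
  exact h2

theorem univRep_residual :
    (univRep N S (𝒟 := 𝒟)).residual.IsEquiv
      (ρbar.baseChangeAlong (IsLocalRing.ResidueField.map (algebraMap 𝒪 (UnivRing N 𝒟 S)))) := by
  have hN := univMat_isNormLift N S (𝒟 := 𝒟)
  show (ofMat (univMat N S (𝒟 := 𝒟)) hN.cont).residual.IsEquiv _
  rw [ofMat_residual_isEquiv_iff N hN.cont]
  have heq : mapMat (resK 𝒪 (UnivRing N 𝒟 S)).toRingHom (univMat N S (𝒟 := 𝒟)) = N.rbar := by
    ext σ i j
    exact hN.res σ i j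
  rw [heq]
  exact MatConj.refl _

section Univ

variable {A : Type} [CommRing A] [IsLocalRing A] [Algebra 𝒪 A] [IsResAlg 𝒪 A]
  [IsNoetherianRing A] [IsAdicComplete (maximalIdeal A) A]

theorem univRep_exists (ρA : GaloisRepAdic A) (hD : 𝒟 ρA)
    (hres : ρA.residual.IsEquiv
      (ρbar.baseChangeAlong (IsLocalRing.ResidueField.map (algebraMap 𝒪 A)))) :
    ∃ φ : UnivRing N 𝒟 S →ₐ[𝒪] A, ∃ hφ : IsLocalHom (φ : UnivRing N 𝒟 S →+* A),
      ((univRep N S (𝒟 := 𝒟)).baseChangeAlong (φ : UnivRing N 𝒟 S →+* A) hφ).IsEquiv ρA := by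
  have H : UnivHyp N (𝒟 := 𝒟) S := Fact.out
  -- choose a basis
  obtain ⟨M, hM, hρM⟩ := exists_ofMat ρA
  -- residual condition in matrix form
  have hres' : MatConj N.rbar (mapMat (resK 𝒪 A).toRingHom M) := by
    rw [← ofMat_residual_isEquiv_iff N hM]
    exact DictBridge.isEquiv_symm hρM |> fun h =>
      (IsEquiv.residual' h).elim fun e => hres.elim fun e' => ⟨e.trans e'⟩
  -- normal form
  obtain ⟨M', hconj, hM'⟩ := exists_normLift N hM hres'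
  have hMM' : (ofMat M hM).IsEquiv (ofMat M' hM'.cont) := (ofMat_isEquiv_iff hM hM'.cont).mpr hconj
  have hρM' : ρA.IsEquiv (ofMat M' hM'.cont) := DictBridge.isEquiv_trans hρM hMM'
  have hD' : 𝒟 (ofMat M' hM'.cont) := D_of_isEquiv_cnl H.h𝒟 hρM' hD
  obtain ⟨φ, hφM⟩ := exists_algHom_cnl N S hM' hD'
  have hφ : IsLocalHom (φ : UnivRing N 𝒟 S →+* A) := algHom_isLocalHom φ
  refine ⟨φ, hφ, ?_⟩
  have h1 := ofMat_baseChangeAlong (φ : UnivRing N 𝒟 S →+* A) hφ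
    (univMat_isNormLift N S (𝒟 := 𝒟)).cont
  have h2 : (ofMat (mapMat (φ : UnivRing N 𝒟 S →+* A) (univMat N S (𝒟 := 𝒟)))
      ((univMat_isNormLift N S (𝒟 := 𝒟)).cont.map (φ : UnivRing N 𝒟 S →+* A) hφ)).IsEquiv
      (ofMat M' hM'.cont) := by
    rw [ofMat_isEquiv_iff]
    have : mapMat (φ : UnivRing N 𝒟 S →+* A) (univMat N S (𝒟 := 𝒟)) = M' := hφM
    rw [this]
    exact MatConj.refl _
  exact DictBridge.isEquiv_trans h1 (DictBridge.isEquiv_trans h2 (DictBridge.isEquiv_symm hρM'))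

theorem univRep_unique (ρA : GaloisRepAdic A) (φ ψ : UnivRing N 𝒟 S →ₐ[𝒪] A)
    (hφ : IsLocalHom (φ : UnivRing N 𝒟 S →+* A)) (hψ : IsLocalHom (ψ : UnivRing N 𝒟 S →+* A))
    (h1 : ((univRep N S (𝒟 := 𝒟)).baseChangeAlong (φ : UnivRing N 𝒟 S →+* A) hφ).IsEquiv ρA)
    (h2 : ((univRep N S (𝒟 := 𝒟)).baseChangeAlong (ψ : UnivRing N 𝒟 S →+* A) hψ).IsEquiv ρA) :
    φ = ψ := by
  have hU := univMat_isNormLift N S (𝒟 := 𝒟)
  have e1 := ofMat_baseChangeAlong (φ : UnivRing N 𝒟 S →+* A) hφ hU.cont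
  have e2 := ofMat_baseChangeAlong (ψ : UnivRing N 𝒟 S →+* A) hψ hU.cont
  have h12 : (ofMat (mapMat (φ : UnivRing N 𝒟 S →+* A) (univMat N S (𝒟 := 𝒟)))
      (hU.cont.map (φ : UnivRing N 𝒟 S →+* A) hφ)).IsEquiv
      (ofMat (mapMat (ψ : UnivRing N 𝒟 S →+* A) (univMat N S (𝒟 := 𝒟)))
      (hU.cont.map (ψ : UnivRing N 𝒟 S →+* A) hψ)) :=
    DictBridge.isEquiv_trans (DictBridge.isEquiv_symm e1)
      (DictBridge.isEquiv_trans h1 (DictBridge.isEquiv_trans (DictBridge.isEquiv_symm h2) e2))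
  rw [ofMat_isEquiv_iff] at h12
  have hφN : IsNormLift N A (mapMat φ.toRingHom (univMat N S (𝒟 := 𝒟))) := hU.map N φ
  have hψN : IsNormLift N A (mapMat ψ.toRingHom (univMat N S (𝒟 := 𝒟))) := hU.map N ψ
  exact algHom_ext_univMat_cnl N S (normLift_unique N hφN hψN h12)

end Univ

end

/-- The main theorem in the generality needed. -/
theorem nonempty_deformationRingData
    (𝒪 : Type) [CommRing 𝒪] [IsDomain 𝒪] [IsDiscreteValuationRing 𝒪]
    [IsAdicComplete (IsLocalRing.maximalIdeal 𝒪) 𝒪] [Finite (IsLocalRing.ResidueField 𝒪)]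
    (ρbar : ResidualGaloisRep (IsLocalRing.ResidueField 𝒪))
    (𝒟 : ∀ ⦃A : Type⦄ [CommRing A] [IsLocalRing A] [Algebra 𝒪 A], GaloisRepAdic A → Prop)
    (habs : ρbar.IsAbsolutelyIrreducible)
    (h𝒟 : GaloisRep.IsDeformationCondition 𝒪 𝒟)
    (hbar : 𝒟 (GaloisRepAdic.ofResidualGaloisRep ρbar))
    (hfin : GaloisRep.TangentFinite 𝒪 ρbar 𝒟) :
    Nonempty (GaloisRep.DeformationRingData 𝒪 ρbar 𝒟) := by
  obtain ⟨N⟩ := ResidualNormal.exists_normDatum 𝒪 ρbar habs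
  obtain ⟨S, hS⟩ := exists_separates N (𝒟 := 𝒟) hfin
  haveI : Fact (UnivHyp N (𝒟 := 𝒟) S) := ⟨⟨h𝒟, hbar, hS⟩⟩
  exact ⟨{
    R := UnivRing N 𝒟 S
    residue_surjective := IsResAlg.residue_surjective
    absIrr := habs
    ρ := univRep N S
    isOfType := univRep_isOfType N S
    residual_isEquiv := univRep_residual N S
    universal := by
      intro A _ _ _ _ _ _ hsurj ρA hD hres
      haveI : IsResAlg 𝒪 A := ⟨inferInstance, hsurj⟩
      obtain ⟨φ, hφ, h⟩ := univRep_exists N S ρA hD hres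
      refine ⟨φ, ⟨hφ, h⟩, ?_⟩
      rintro ψ ⟨hψ, h'⟩
      exact univRep_unique N S ρA ψ φ hψ hφ h' h }⟩

end Fermat.Agent.S53
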