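import Fermat.Agent.S53.KerFamily

set_option autoImplicit false

/-!
Universal entries: one element of `PS 𝒪 S` computing a given entry of every normalised `𝒟`-lift
over Artinian test algebras.
-/

namespace Fermat.Agent.S53

open IsLocalRing

set_option linter.unusedSectionVars false

noncomputable section

variable {𝒪 : Type} [CommRing 𝒪] [IsLocalRing 𝒪] [IsNoetherianRing 𝒪]
  {ρbar : ResidualGaloisRep (ResidueField 𝒪)} (N : NormDatum 𝒪 ρbar)
  {𝒟 : ∀ ⦃A : Type⦄ [CommRing A] [IsLocalRing A] [Algebra 𝒪 A], GaloisRepAdic A → Prop}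
  (S : Finset Entry)
  (h𝒟 : GaloisRep.IsDeformationCondition 𝒪 𝒟)
  (hbar : 𝒟 (GaloisRepAdic.ofResidualGaloisRep ρbar))
  [Finite (ResidueField 𝒪)]
  (hS : Separates N (𝒟 := 𝒟) S)

include h𝒟 hbar hS in
theorem sInf_kerFamily_ne_top : sInf (kerFamily N 𝒟 S) ≠ ⊤ := by
  have hK := isKerFamily N S h𝒟 hbar hS
  obtain ⟨J, hJ, -⟩ := hK.nonempty
  intro h
  exact hK.ne_top J hJ (top_le_iff.mp (h ▸ sInf_le hJ))

/-- `u` computes the entry `t` of every normalised `𝒟`-lift whose kernel contains `J`. -/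
def ComputesEntry (J : Ideal (PS 𝒪 S)) (t : Entry) (u : PS 𝒪 S) : Prop :=
  ∀ (A : Type) [CommRing A] [IsLocalRing A] [Algebra 𝒪 A] [IsResAlg 𝒪 A]
    [IsArtinianRing A] (M : GQ →* M2 A) (hM : IsNormDLift N 𝒟 A M),
    J ≤ RingHom.ker (evM N S hM.1) → evM N S hM.1 u = entry M t

include h𝒟 hbar hS in
theorem exists_computesEntry {J : Ideal (PS 𝒪 S)} (hJ : J ∈ kerFamily N 𝒟 S) (t : Entry) :
    ∃ u : PS 𝒪 S, ComputesEntry N (𝒟 := 𝒟) S J t u := by
  obtain ⟨A, _, _, _, _, _, M, hM, rfl⟩ := hJ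
  obtain ⟨u, hu⟩ := entry_mem_range_evM N S h𝒟 hbar hS hM t
  refine ⟨u, fun A' _ _ _ _ _ M' hM' hle => ?_⟩
  exact evM_eq_entry_of_ker_le N S h𝒟 hbar hS hM hM' hle u t hu

include h𝒟 hbar hS in
theorem sub_mem_of_computesEntry {J J' : Ideal (PS 𝒪 S)} (hJ : J ∈ kerFamily N 𝒟 S)
    (hle : J' ≤ J) (t : Entry) {u u' : PS 𝒪 S} (hu : ComputesEntry N (𝒟 := 𝒟) S J t u)
    (hu' : ComputesEntry N (𝒟 := 𝒟) S J' t u') : u - u' ∈ J := by
  obtain ⟨A, _, _, _, _, _, M, hM, rfl⟩ := hJ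
  have h1 := hu A M hM le_rfl
  have h2 := hu' A M hM hle
  rw [RingHom.mem_ker, map_sub, h1, h2, sub_self]

include h𝒟 hbar hS in
/-- Universal entries: one power series computing a given entry of every normalised `𝒟`-lift. -/
theorem exists_univEntry_aux (t : Entry) :
    ∃ u : PS 𝒪 S, ∀ (A : Type) [CommRing A] [IsLocalRing A] [Algebra 𝒪 A] [IsResAlg 𝒪 A]
      [IsArtinianRing A] (M : GQ →* M2 A) (hM : IsNormDLift N 𝒟 A M),
      evM N S hM.1 u = entry M t := by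
  have hK := isKerFamily N S h𝒟 hbar hS
  have hmem : ∀ n, towerIdeal (kerFamily N 𝒟 S) n ∈ kerFamily N 𝒟 S := fun n =>
    towerIdeal_mem hK n
  have hex : ∀ n, ∃ u : PS 𝒪 S,
      ComputesEntry N (𝒟 := 𝒟) S (towerIdeal (kerFamily N 𝒟 S) n) t u := fun n =>
    exists_computesEntry N S h𝒟 hbar hS (hmem n) t
  choose u hu using hex
  have hcoh : ∀ m n, m ≤ n → u n - u m ∈ towerIdeal (kerFamily N 𝒟 S) m := by
    intro m n hmn
    have := sub_mem_of_computesEntry N S h𝒟 hbar hS (hmem m) (towerIdeal_antitone hmn) t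
      (hu m) (hu n)
    have h2 : u n - u m = -(u m - u n) := by ring
    rw [h2]
    exact Ideal.neg_mem_iff _ |>.mpr this
  obtain ⟨x, hx⟩ := exists_limit_of_coherent hK u hcoh
  refine ⟨x, fun A _ _ _ _ _ M hM => ?_⟩
  have hJ : RingHom.ker (evM N S hM.1) ∈ kerFamily N 𝒟 S :=
    ⟨A, inferInstance, inferInstance, inferInstance, inferInstance, inferInstance, M, hM, rfl⟩
  obtain ⟨n, hn⟩ := hK.pow_le _ hJ
  have hle : towerIdeal (kerFamily N 𝒟 S) n ≤ RingHom.ker (evM N S hM.1) :=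
    towerIdeal_le hJ hn
  have h1 := hu n A M hM hle
  have h2 : x - u n ∈ RingHom.ker (evM N S hM.1) := hle (hx n)
  rw [RingHom.mem_ker, map_sub, sub_eq_zero] at h2
  rw [h2, h1]

end

end Fermat.Agent.S53
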