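import Fermat.Agent.S53.KerFamily
import Fermat.Agent.S53.V4.UnivEntry
import Fermat.Agent.S53.QuotCNL

set_option autoImplicit false

/-!
The universal ring `UnivRing = PS 𝒪 S ⧸ sInf kerFamily` and the universal matrix representation.
OWNER: helper8 (parts may be handed out).
-/

namespace Fermat.Agent.S53

open IsLocalRing

set_option linter.unusedSectionVars false

noncomputable section

variable {𝒪 : Type} [CommRing 𝒪] [IsLocalRing 𝒪] [IsNoetherianRing 𝒪]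
  {ρbar : ResidualGaloisRep (ResidueField 𝒪)} (N : NormDatum 𝒪 ρbar)
  (𝒟 : ∀ ⦃A : Type⦄ [CommRing A] [IsLocalRing A] [Algebra 𝒪 A], GaloisRepAdic A → Prop)
  (S : Finset Entry)

/-- The intersection of all kernels. -/
def Jhat : Ideal (PS 𝒪 S) := sInf (kerFamily N 𝒟 S)

/-- The universal deformation ring. -/
def UnivRing : Type := PS 𝒪 S ⧸ Jhat N 𝒟 S

instance : CommRing (UnivRing N 𝒟 S) := inferInstanceAs (CommRing (PS 𝒪 S ⧸ Jhat N 𝒟 S))
instance : Algebra 𝒪 (UnivRing N 𝒟 S) := inferInstanceAs (Algebra 𝒪 (PS 𝒪 S ⧸ Jhat N 𝒟 S))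
instance : IsNoetherianRing (UnivRing N 𝒟 S) :=
  inferInstanceAs (IsNoetherianRing (PS 𝒪 S ⧸ Jhat N 𝒟 S))

/-- The quotient map. -/
def univMk : PS 𝒪 S →ₐ[𝒪] UnivRing N 𝒟 S := Ideal.Quotient.mkₐ 𝒪 (Jhat N 𝒟 S)

variable {𝒟}
variable (h𝒟 : GaloisRep.IsDeformationCondition 𝒪 𝒟)
  (hbar : 𝒟 (GaloisRepAdic.ofResidualGaloisRep ρbar))
  [Finite (ResidueField 𝒪)]
  (hS : Separates N (𝒟 := 𝒟) S)

include h𝒟 hbar hS in
theorem jhat_ne_top : Jhat N 𝒟 S ≠ ⊤ :=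
  sInf_kerFamily_ne_top N S h𝒟 hbar hS

include h𝒟 hbar hS in
/-- Universal entries: one power series computing a given entry of every normalised `𝒟`-lift. -/
theorem exists_univEntry (t : Entry) :
    ∃ u : PS 𝒪 S, ∀ (A : Type) [CommRing A] [IsLocalRing A] [Algebra 𝒪 A] [IsResAlg 𝒪 A]
      [IsArtinianRing A] (M : GQ →* M2 A) (hM : IsNormDLift N 𝒟 A M),
      evM N S hM.1 u = entry M t :=
  exists_univEntry_aux N S h𝒟 hbar hS t

/-- Packaged hypotheses, so that instances on `UnivRing` can be found by unification. -/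
structure UnivHyp : Prop where
  h𝒟 : GaloisRep.IsDeformationCondition 𝒪 𝒟
  hbar : 𝒟 (GaloisRepAdic.ofResidualGaloisRep ρbar)
  hS : Separates N (𝒟 := 𝒟) S

variable [Fact (UnivHyp N (𝒟 := 𝒟) S)]

omit [Finite (ResidueField 𝒪)] in
theorem jhat_ne_top' [Finite (ResidueField 𝒪)] : Jhat N 𝒟 S ≠ ⊤ :=
  have h : UnivHyp N (𝒟 := 𝒟) S := Fact.out
  jhat_ne_top N S h.h𝒟 h.hbar h.hS

instance : IsLocalRing (UnivRing N 𝒟 S) :=
  quot_isLocalRing (PS 𝒪 S) (Jhat N 𝒟 S) (jhat_ne_top' N S)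
instance : IsAdicComplete (maximalIdeal (UnivRing N 𝒟 S)) (UnivRing N 𝒟 S) :=
  haveI : IsLocalRing (PS 𝒪 S ⧸ Jhat N 𝒟 S) := inferInstanceAs (IsLocalRing (UnivRing N 𝒟 S))
  quot_isAdicComplete (Jhat N 𝒟 S)
instance : IsResAlg 𝒪 (UnivRing N 𝒟 S) :=
  quot_isResAlg (PS 𝒪 S) (Jhat N 𝒟 S) (jhat_ne_top' N S)

/-! ### Evaluation maps on the universal ring (helper19) -/

omit [Finite (ResidueField 𝒪)] [Fact (UnivHyp N (𝒟 := 𝒟) S)] in
theorem ker_evM_mem_kerFamily {A : Type} [CommRing A] [IsLocalRing A] [Algebra 𝒪 A]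
    [IsResAlg 𝒪 A] [IsArtinianRing A] {M : GQ →* M2 A} (hM : IsNormDLift N 𝒟 A M) :
    RingHom.ker (evM N S hM.1) ∈ kerFamily N 𝒟 S :=
  ⟨A, _, _, _, _, _, M, hM, rfl⟩

omit [Finite (ResidueField 𝒪)] [Fact (UnivHyp N (𝒟 := 𝒟) S)] in
theorem jhat_le_ker_evM {A : Type} [CommRing A] [IsLocalRing A] [Algebra 𝒪 A]
    [IsResAlg 𝒪 A] [IsArtinianRing A] {M : GQ →* M2 A} (hM : IsNormDLift N 𝒟 A M) :
    Jhat N 𝒟 S ≤ RingHom.ker (evM N S hM.1) :=
  sInf_le (ker_evM_mem_kerFamily N S hM)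

omit [Finite (ResidueField 𝒪)] [Fact (UnivHyp N (𝒟 := 𝒟) S)] in
theorem mem_jhat_of_forall {u : PS 𝒪 S}
    (h : ∀ (A : Type) [CommRing A] [IsLocalRing A] [Algebra 𝒪 A] [IsResAlg 𝒪 A]
      [IsArtinianRing A] (M : GQ →* M2 A) (hM : IsNormDLift N 𝒟 A M), evM N S hM.1 u = 0) :
    u ∈ Jhat N 𝒟 S := by
  rw [Jhat, Ideal.mem_sInf]
  rintro J ⟨A, _, _, _, _, _, M, hM, rfl⟩
  exact h A M hM

omit [Finite (ResidueField 𝒪)] [Fact (UnivHyp N (𝒟 := 𝒟) S)] in
theorem univMk_surjective : Function.Surjective (univMk N 𝒟 S) :=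
  Ideal.Quotient.mk_surjective

omit [Finite (ResidueField 𝒪)] [Fact (UnivHyp N (𝒟 := 𝒟) S)] in
theorem univMk_eq_zero_iff (u : PS 𝒪 S) : univMk N 𝒟 S u = 0 ↔ u ∈ Jhat N 𝒟 S :=
  Ideal.Quotient.eq_zero_iff_mem

section EvBar

variable {A : Type} [CommRing A] [IsLocalRing A] [Algebra 𝒪 A] [IsResAlg 𝒪 A] [IsArtinianRing A]

/-- The evaluation map of a normalised `𝒟`-lift, on the universal ring. -/
def evBar {M : GQ →* M2 A} (hM : IsNormDLift N 𝒟 A M) : UnivRing N 𝒟 S →ₐ[𝒪] A :=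
  Ideal.Quotient.liftₐ (Jhat N 𝒟 S) (evM N S hM.1) fun _ hu =>
    (RingHom.mem_ker).mp (jhat_le_ker_evM N S hM hu)

omit [Finite (ResidueField 𝒪)] [Fact (UnivHyp N (𝒟 := 𝒟) S)] in
theorem evBar_univMk {M : GQ →* M2 A} (hM : IsNormDLift N 𝒟 A M) (u : PS 𝒪 S) :
    evBar N S hM (univMk N 𝒟 S u) = evM N S hM.1 u := rfl

end EvBar

omit [Finite (ResidueField 𝒪)] [Fact (UnivHyp N (𝒟 := 𝒟) S)] in
/-- The evaluation maps are jointly injective on the universal ring. -/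
theorem eq_of_forall_evBar {a b : UnivRing N 𝒟 S}
    (h : ∀ (A : Type) [CommRing A] [IsLocalRing A] [Algebra 𝒪 A] [IsResAlg 𝒪 A]
      [IsArtinianRing A] (M : GQ →* M2 A) (hM : IsNormDLift N 𝒟 A M),
      evBar N S hM a = evBar N S hM b) : a = b := by
  obtain ⟨u, rfl⟩ := univMk_surjective N S (𝒟 := 𝒟) a
  obtain ⟨v, rfl⟩ := univMk_surjective N S (𝒟 := 𝒟) b
  rw [← sub_eq_zero, ← map_sub, univMk_eq_zero_iff]
  apply mem_jhat_of_forall
  intro A _ _ _ _ _ M hM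
  have := h A M hM
  rw [evBar_univMk, evBar_univMk] at this
  rw [map_sub, this, sub_self]

omit [Finite (ResidueField 𝒪)] [Fact (UnivHyp N (𝒟 := 𝒟) S)] in
/-- Joint injectivity for matrices. -/
theorem matrix_eq_of_forall_evBar {X Y : M2 (UnivRing N 𝒟 S)}
    (h : ∀ (A : Type) [CommRing A] [IsLocalRing A] [Algebra 𝒪 A] [IsResAlg 𝒪 A]
      [IsArtinianRing A] (M : GQ →* M2 A) (hM : IsNormDLift N 𝒟 A M),
      (evBar N S hM).toRingHom.mapMatrix X = (evBar N S hM).toRingHom.mapMatrix Y) : X = Y := by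
  ext i j
  apply eq_of_forall_evBar N S
  intro A _ _ _ _ _ M hM
  have := congrFun (congrFun (h A M hM) i) j
  exact this

/-- A chosen universal power series for each entry. -/
def univEntry (t : Entry) : PS 𝒪 S :=
  (exists_univEntry N S (Fact.out : UnivHyp N (𝒟 := 𝒟) S).h𝒟
    (Fact.out : UnivHyp N (𝒟 := 𝒟) S).hbar (Fact.out : UnivHyp N (𝒟 := 𝒟) S).hS t).choose

theorem evM_univEntry (t : Entry) {A : Type} [CommRing A] [IsLocalRing A] [Algebra 𝒪 A]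
    [IsResAlg 𝒪 A] [IsArtinianRing A] {M : GQ →* M2 A} (hM : IsNormDLift N 𝒟 A M) :
    evM N S hM.1 (univEntry N S (𝒟 := 𝒟) t) = entry M t :=
  (exists_univEntry N S (Fact.out : UnivHyp N (𝒟 := 𝒟) S).h𝒟
    (Fact.out : UnivHyp N (𝒟 := 𝒟) S).hbar (Fact.out : UnivHyp N (𝒟 := 𝒟) S).hS t).choose_spec
    A M hM

/-- The universal matrices, as a plain function. -/
def univFun (σ : GQ) : M2 (UnivRing N 𝒟 S) :=
  Matrix.of fun i j => univMk N 𝒟 S (univEntry N S (𝒟 := 𝒟) (σ, i, j))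

theorem mapMatrix_evBar_univFun {A : Type} [CommRing A] [IsLocalRing A] [Algebra 𝒪 A]
    [IsResAlg 𝒪 A] [IsArtinianRing A] {M : GQ →* M2 A} (hM : IsNormDLift N 𝒟 A M) (σ : GQ) :
    (evBar N S hM).toRingHom.mapMatrix (univFun N S (𝒟 := 𝒟) σ) = M σ := by
  ext i j
  show evBar N S hM (univMk N 𝒟 S (univEntry N S (𝒟 := 𝒟) (σ, i, j))) = M σ i j
  rw [evBar_univMk, evM_univEntry N S _ hM]
  rfl

/-- The universal matrix representation. -/
def univMat : GQ →* M2 (UnivRing N 𝒟 S) where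
  toFun := univFun N S (𝒟 := 𝒟)
  map_one' := by
    apply matrix_eq_of_forall_evBar N S
    intro A _ _ _ _ _ M hM
    rw [mapMatrix_evBar_univFun, map_one, map_one]
  map_mul' σ τ := by
    apply matrix_eq_of_forall_evBar N S
    intro A _ _ _ _ _ M hM
    rw [map_mul, mapMatrix_evBar_univFun, mapMatrix_evBar_univFun, mapMatrix_evBar_univFun,
      map_mul]

theorem univMat_apply (σ : GQ) (i j : Fin 2) :
    univMat N S (𝒟 := 𝒟) σ i j = univMk N 𝒟 S (univEntry N S (𝒟 := 𝒟) (σ, i, j)) := rfl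

/-- Specification of the universal matrix representation: each entry is the class of a power
series computing that entry of every normalised `𝒟`-lift. -/
theorem univMat_spec (σ : GQ) (i j : Fin 2) :
    ∃ u : PS 𝒪 S, univMk N 𝒟 S u = univMat N S (𝒟 := 𝒟) σ i j ∧
      ∀ (A : Type) [CommRing A] [IsLocalRing A] [Algebra 𝒪 A] [IsResAlg 𝒪 A]
        [IsArtinianRing A] (M : GQ →* M2 A) (hM : IsNormDLift N 𝒟 A M),
        evM N S hM.1 u = M σ i j :=
  ⟨univEntry N S (𝒟 := 𝒟) (σ, i, j), rfl, fun _ _ _ _ _ _ _ hM => evM_univEntry N S _ hM⟩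

theorem evBar_univMat {A : Type} [CommRing A] [IsLocalRing A] [Algebra 𝒪 A]
    [IsResAlg 𝒪 A] [IsArtinianRing A] {M : GQ →* M2 A} (hM : IsNormDLift N 𝒟 A M) (σ : GQ)
    (i j : Fin 2) : evBar N S hM (univMat N S (𝒟 := 𝒟) σ i j) = M σ i j := by
  rw [univMat_apply, evBar_univMk, evM_univEntry N S _ hM]
  rfl

theorem mapMat_evBar_univMat {A : Type} [CommRing A] [IsLocalRing A] [Algebra 𝒪 A]
    [IsResAlg 𝒪 A] [IsArtinianRing A] {M : GQ →* M2 A} (hM : IsNormDLift N 𝒟 A M) :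
    mapMat (evBar N S hM).toRingHom (univMat N S (𝒟 := 𝒟)) = M := by
  ext σ i j
  exact evBar_univMat N S hM σ i j

/-- The family of kernels satisfies the tower axioms. -/
theorem isKerFamily_of_fact : IsKerFamily (kerFamily N 𝒟 S) :=
  isKerFamily N S (Fact.out : UnivHyp N (𝒟 := 𝒟) S).h𝒟
    (Fact.out : UnivHyp N (𝒟 := 𝒟) S).hbar (Fact.out : UnivHyp N (𝒟 := 𝒟) S).hS

/-- The maximal ideal of the universal ring is the image of that of the power series ring. -/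
theorem maximalIdeal_univRing_pow (n : ℕ) :
    maximalIdeal (UnivRing N 𝒟 S) ^ n =
      (maximalIdeal (PS 𝒪 S) ^ n).map (univMk N 𝒟 S : PS 𝒪 S →+* UnivRing N 𝒟 S) := by
  rw [Ideal.map_pow]
  congr 1
  exact (IsLocalRing.map_maximalIdeal_of_surjective
    (univMk N 𝒟 S : PS 𝒪 S →+* UnivRing N 𝒟 S) (univMk_surjective N S (𝒟 := 𝒟))).symm

/-- The `(n+1)`-st power of the maximal ideal of the universal ring corresponds to the `n`-th
ideal of the tower. -/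
theorem univMk_mem_pow_iff (n : ℕ) (u : PS 𝒪 S) :
    univMk N 𝒟 S u ∈ maximalIdeal (UnivRing N 𝒟 S) ^ (n + 1) ↔
      u ∈ towerIdeal (kerFamily N 𝒟 S) n := by
  rw [maximalIdeal_univRing_pow, ← sInf_sup_pow_eq_towerIdeal (isKerFamily_of_fact N S) n,
    Ideal.mem_map_iff_of_surjective (univMk N 𝒟 S : PS 𝒪 S →+* UnivRing N 𝒟 S)
      (univMk_surjective N S (𝒟 := 𝒟))]
  constructor
  · rintro ⟨x, hx, hxu⟩
    have h1 : u - x ∈ Jhat N 𝒟 S := by
      rw [← univMk_eq_zero_iff, map_sub, sub_eq_zero]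
      exact hxu.symm
    have h2 : u = (u - x) + x := by ring
    rw [h2]
    exact Ideal.add_mem _ (Ideal.mem_sup_left h1) (Ideal.mem_sup_right hx)
  · intro hu
    obtain ⟨a, ha, b, hb, rfl⟩ := Submodule.mem_sup.mp hu
    refine ⟨b, hb, ?_⟩
    have h1 : univMk N 𝒟 S a = 0 := (univMk_eq_zero_iff N S a).mpr ha
    show univMk N 𝒟 S b = univMk N 𝒟 S (a + b)
    rw [map_add, h1, zero_add]

/-- The `n`-th level of the tower is the kernel of an evaluation map. -/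
theorem exists_level (n : ℕ) :
    ∃ (A : Type) (_ : CommRing A) (_ : IsLocalRing A) (_ : Algebra 𝒪 A) (_ : IsResAlg 𝒪 A)
      (_ : IsArtinianRing A) (M : GQ →* M2 A) (hM : IsNormDLift N 𝒟 A M),
      RingHom.ker (evBar N S hM) = maximalIdeal (UnivRing N 𝒟 S) ^ (n + 1) := by
  obtain ⟨A, i1, i2, i3, i4, i5, M, hM, hJ⟩ :=
    towerIdeal_mem (isKerFamily_of_fact N S (𝒟 := 𝒟)) n
  refine ⟨A, i1, i2, i3, i4, i5, M, hM, ?_⟩
  ext a
  obtain ⟨u, rfl⟩ := univMk_surjective N S (𝒟 := 𝒟) a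
  rw [univMk_mem_pow_iff, hJ, RingHom.mem_ker, RingHom.mem_ker, evBar_univMk]

theorem univMat_isNormLift : IsNormLift N (UnivRing N 𝒟 S) (univMat N S (𝒟 := 𝒟)) := by
  have hyp : UnivHyp N (𝒟 := 𝒟) S := Fact.out
  have hbase := isNormDLift_rbar N hyp.h𝒟 hyp.hbar
  refine ⟨?_, ?_, ?_, ?_, ?_⟩
  · intro n
    obtain ⟨A, _, _, _, _, _, M, hM, hker⟩ := exists_level N S (𝒟 := 𝒟) n
    obtain ⟨L, hL, h⟩ := (matCont_iff_of_isArtinianRing A M).mp hM.1.cont
    refine ⟨L, hL, fun σ hσ i j => ?_⟩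
    apply Ideal.pow_le_pow_right (Nat.le_succ n)
    rw [← hker, RingHom.mem_ker, Matrix.sub_apply, map_sub, evBar_univMat, h σ hσ]
    by_cases hij : i = j
    · subst hij
      rw [Matrix.one_apply_eq, Matrix.one_apply_eq, map_one, sub_self]
    · rw [Matrix.one_apply_ne hij, Matrix.one_apply_ne hij, map_zero, sub_self]
  · intro σ i j
    rw [← resK_comp (evBar N S hbase), evBar_univMat, resK_residueField]
  · apply eq_of_forall_evBar N S
    intro A _ _ _ _ _ M hM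
    rw [evBar_univMat, map_zero, hM.1.g0_00]
  · apply eq_of_forall_evBar N S
    intro A _ _ _ _ _ M hM
    rw [evBar_univMat, map_one, hM.1.g0_10]
  · apply eq_of_forall_evBar N S
    intro A _ _ _ _ _ M hM
    rw [evBar_univMat, AlgHom.commutes, hM.1.g1_ij]

theorem univMat_quotPow (n : ℕ) :
    IsNormDLift N 𝒟 (UnivRing N 𝒟 S ⧸ maximalIdeal (UnivRing N 𝒟 S) ^ (n + 1))
      (mapMat (Ideal.Quotient.mk (maximalIdeal (UnivRing N 𝒟 S) ^ (n + 1)))
        (univMat N S (𝒟 := 𝒟))) := by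
  have hyp : UnivHyp N (𝒟 := 𝒟) S := Fact.out
  obtain ⟨A, _, _, _, _, _, M, hM, hker⟩ := exists_level N S (𝒟 := 𝒟) n
  let ψ : (UnivRing N 𝒟 S ⧸ maximalIdeal (UnivRing N 𝒟 S) ^ (n + 1)) →ₐ[𝒪] A :=
    Ideal.Quotient.liftₐ _ (evBar N S hM) fun a ha => by
      rw [← hker] at ha
      exact ha
  have hψ : Function.Injective ψ := by
    rw [injective_iff_map_eq_zero]
    intro x hx
    obtain ⟨a, rfl⟩ := Ideal.Quotient.mk_surjective x
    have h1 : evBar N S hM a = 0 := hx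
    rw [Ideal.Quotient.eq_zero_iff_mem, ← hker]
    exact h1
  apply IsNormDLift.of_injective N hyp.h𝒟 ψ hψ
  have : mapMat ψ.toRingHom (mapMat (Ideal.Quotient.mk (maximalIdeal (UnivRing N 𝒟 S) ^ (n + 1)))
      (univMat N S (𝒟 := 𝒟))) = M := by
    ext σ i j
    exact evBar_univMat N S hM σ i j
  rw [this]
  exact hM

section Art

variable {A : Type} [CommRing A] [IsLocalRing A] [Algebra 𝒪 A] [IsResAlg 𝒪 A] [IsArtinianRing A]

theorem exists_algHom_of_isNormDLift {M : GQ →* M2 A} (hM : IsNormDLift N 𝒟 A M) :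
    ∃ φ : UnivRing N 𝒟 S →ₐ[𝒪] A, mapMat φ.toRingHom (univMat N S (𝒟 := 𝒟)) = M :=
  ⟨evBar N S hM, mapMat_evBar_univMat N S hM⟩

/-- The class of a variable is an entry of the universal matrix minus a constant. -/
theorem univMk_X (s : S) :
    univMk N 𝒟 S (PS.X s) =
      univMat N S (𝒟 := 𝒟) s.1.1 s.1.2.1 s.1.2.2 - algebraMap 𝒪 _ (cLift N s.1) := by
  apply eq_of_forall_evBar N S
  intro A _ _ _ _ _ M hM
  rw [map_sub, evBar_univMat, AlgHom.commutes, evBar_univMk, evM_X]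
  rfl

theorem algHom_ext_univMat {φ ψ : UnivRing N 𝒟 S →ₐ[𝒪] A}
    (h : mapMat φ.toRingHom (univMat N S (𝒟 := 𝒟)) =
      mapMat ψ.toRingHom (univMat N S (𝒟 := 𝒟))) : φ = ψ := by
  have h1 : φ.comp (univMk N 𝒟 S) = ψ.comp (univMk N 𝒟 S) := by
    apply PS.algHom_ext
    intro s
    rw [AlgHom.comp_apply, AlgHom.comp_apply, univMk_X, map_sub, map_sub, AlgHom.commutes,
      AlgHom.commutes]
    congr 1
    have := congrFun (congrFun (DFunLike.congr_fun h s.1.1) s.1.2.1) s.1.2.2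
    exact this
  ext a
  obtain ⟨u, rfl⟩ := univMk_surjective N S (𝒟 := 𝒟) a
  exact AlgHom.congr_fun h1 u

end Art

section CNL

variable {A : Type} [CommRing A] [IsLocalRing A] [Algebra 𝒪 A] [IsResAlg 𝒪 A]
  [IsNoetherianRing A] [IsAdicComplete (maximalIdeal A) A]

theorem exists_algHom_cnl {M : GQ →* M2 A} (hM : IsNormLift N A M) (hD : 𝒟 (ofMat M hM.cont)) :
    ∃ φ : UnivRing N 𝒟 S →ₐ[𝒪] A, mapMat φ.toRingHom (univMat N S (𝒟 := 𝒟)) = M := by
  have h𝒟 : GaloisRep.IsDeformationCondition 𝒪 𝒟 := (Fact.out : UnivHyp N (𝒟 := 𝒟) S).h𝒟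
  set 𝔪 := maximalIdeal A with h𝔪
  -- the Artinian levels
  have hlev : ∀ n : ℕ, ∃ g : UnivRing N 𝒟 S →ₐ[𝒪] A ⧸ 𝔪 ^ (n + 1),
      mapMat g.toRingHom (univMat N S (𝒟 := 𝒟)) =
        mapMat (Ideal.Quotient.mk (𝔪 ^ (n + 1))) M := fun n =>
    exists_algHom_of_isNormDLift N S (IsNormDLift.quotPow N h𝒟 hM hD n)
  choose g hg using hlev
  let f : (n : ℕ) → UnivRing N 𝒟 S →ₐ[𝒪] A ⧸ 𝔪 ^ n := fun n =>
    (Ideal.Quotient.factorₐ 𝒪 (Ideal.pow_le_pow_right (Nat.le_succ n))).comp (g n)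
  have hfmat : ∀ n σ i j, f n (univMat N S (𝒟 := 𝒟) σ i j) =
      Ideal.Quotient.mk (𝔪 ^ n) (M σ i j) := by
    intro n σ i j
    have h1 := congrArg (fun X : GQ →* M2 (A ⧸ 𝔪 ^ (n + 1)) => X σ i j) (hg n)
    simp only [mapMat_apply] at h1
    have h2 : g n (univMat N S (𝒟 := 𝒟) σ i j) =
        Ideal.Quotient.mk (𝔪 ^ (n + 1)) (M σ i j) := h1
    show Ideal.Quotient.factorₐ 𝒪 (Ideal.pow_le_pow_right (Nat.le_succ n))
      (g n (univMat N S (𝒟 := 𝒟) σ i j)) = _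
    rw [h2]
    rfl
  have hcompat : ∀ {m n : ℕ} (hle : m ≤ n),
      (Ideal.Quotient.factorₐ 𝒪 (Ideal.pow_le_pow_right hle)).comp (f n) = f m := by
    intro m n hle
    rcases m with _ | k
    · haveI : Subsingleton (A ⧸ 𝔪 ^ 0) := by
        rw [Ideal.Quotient.subsingleton_iff, pow_zero, Ideal.one_eq_top]
      exact AlgHom.ext fun x => Subsingleton.elim _ _
    · apply algHom_ext_univMat N S
      ext σ i j
      simp only [mapMat_apply]
      show Ideal.Quotient.factorₐ 𝒪 (Ideal.pow_le_pow_right hle)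
        (f n (univMat N S (𝒟 := 𝒟) σ i j)) = f (k + 1) (univMat N S (𝒟 := 𝒟) σ i j)
      rw [hfmat, hfmat]
      rfl
  refine ⟨IsAdicComplete.liftAlgHom 𝔪 f hcompat, ?_⟩
  ext σ i j
  simp only [mapMat_apply]
  have hH : IsHausdorff 𝔪 A := inferInstance
  rw [← sub_eq_zero]
  refine hH.haus _ fun n => ?_
  rw [SModEq.zero, smul_eq_mul, Ideal.mul_top, ← Ideal.Quotient.eq_zero_iff_mem, map_sub,
    sub_eq_zero]
  have h3 := IsAdicComplete.mk_liftAlgHom 𝔪 f hcompat n (univMat N S (𝒟 := 𝒟) σ i j)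
  rw [hfmat] at h3
  exact h3

theorem algHom_ext_univMat_cnl {φ ψ : UnivRing N 𝒟 S →ₐ[𝒪] A}
    (h : mapMat φ.toRingHom (univMat N S (𝒟 := 𝒟)) =
      mapMat ψ.toRingHom (univMat N S (𝒟 := 𝒟))) : φ = ψ := by
  refine IsAdicComplete.algHom_ext (maximalIdeal A) fun n => ?_
  rcases n with _ | k
  · haveI : Subsingleton (A ⧸ maximalIdeal A ^ 0) := by
      rw [Ideal.Quotient.subsingleton_iff, pow_zero, Ideal.one_eq_top]
    exact AlgHom.ext fun x => Subsingleton.elim _ _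
  · apply algHom_ext_univMat N S
    ext σ i j
    simp only [mapMat_apply]
    have h1 := congrArg (fun X : GQ →* M2 A => X σ i j) h
    simp only [mapMat_apply] at h1
    show Ideal.Quotient.mk _ (φ (univMat N S (𝒟 := 𝒟) σ i j)) =
      Ideal.Quotient.mk _ (ψ (univMat N S (𝒟 := 𝒟) σ i j))
    exact congrArg _ h1

end CNL

end

end Fermat.Agent.S53
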